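/-
GATE-J27 / A4 (GJ27-ZRR), abstract core (Mathlib only).

Let `A d` be the number of (Frobenius-invariant) effective divisors of degree `d` of a function
field of genus `g` over `𝔽_q` with class number `h`.  Everything A4 needs about the zeta function
`Z(T) = ∑ A_d T^d` is FORMAL from three facts:

* `(a0)`  `A 0 = 1`;
* `(st)`  for `d ≥ 2g − 1`:  `(q − 1) A d = h (q^(d+1−g) − 1)`   (Riemann, stable range);
* `(top)` for `g ≥ 1`:  `(q − 1) A (2g−2) = (h − 1)(q^(g−1) − 1) + (q^g − 1)`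
          (classes of degree `2g − 2` have `ℓ = g − 1`, except the canonical class with `ℓ = g`).

Then `(1 − T)(1 − qT) Z(T) = L(T)` for a polynomial `L ∈ ℤ[T]` with `L(0) = 1`, `L(1) = h`,
`deg L = 2g` and leading coefficient `q^g`.
-/
import Mathlib

set_option autoImplicit false

open Polynomial

namespace Fermat.Agent.GJ27.ZRR

/-- The coefficients of `(1 − T)(1 − qT) ∑ A_d T^d`. -/
def lCoeff (q : ℤ) (A : ℕ → ℤ) : ℕ → ℤ
  | 0 => A 0
  | 1 => A 1 - (q + 1) * A 0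
  | (n + 2) => A (n + 2) - (q + 1) * A (n + 1) + q * A n

@[simp] theorem lCoeff_zero (q : ℤ) (A : ℕ → ℤ) : lCoeff q A 0 = A 0 := rfl
@[simp] theorem lCoeff_one (q : ℤ) (A : ℕ → ℤ) : lCoeff q A 1 = A 1 - (q + 1) * A 0 := rfl
@[simp] theorem lCoeff_add_two (q : ℤ) (A : ℕ → ℤ) (n : ℕ) :
    lCoeff q A (n + 2) = A (n + 2) - (q + 1) * A (n + 1) + q * A n := rfl

/-- coefficients of `f − a X f + b X² f`. -/
theorem coeff_aux (a b : ℤ) (A : ℕ → ℤ) (n : ℕ) :
    PowerSeries.coeff n (PowerSeries.mk A - PowerSeries.C a * (PowerSeries.X *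
      PowerSeries.mk A) + PowerSeries.C b * (PowerSeries.X * (PowerSeries.X *
      PowerSeries.mk A))) =
    match n with
    | 0 => A 0
    | 1 => A 1 - a * A 0
    | (n + 2) => A (n + 2) - a * A (n + 1) + b * A n := by
  rcases n with _ | n
  · simp only [map_add, map_sub, PowerSeries.coeff_C_mul, PowerSeries.coeff_zero_X_mul,
      PowerSeries.coeff_mk, mul_zero, sub_zero, add_zero]
  rcases n with _ | n
  · have h1 : PowerSeries.coeff 1 (PowerSeries.X * PowerSeries.mk A) = A 0 := by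
      have := PowerSeries.coeff_succ_X_mul 0 (PowerSeries.mk A)
      rw [zero_add, PowerSeries.coeff_mk] at this
      exact this
    have h2 : PowerSeries.coeff 1 (PowerSeries.X * (PowerSeries.X * PowerSeries.mk A)) = 0 := by
      have := PowerSeries.coeff_succ_X_mul 0 (PowerSeries.X * PowerSeries.mk A)
      rw [zero_add, PowerSeries.coeff_zero_X_mul] at this
      exact this
    simp only [zero_add, map_add, map_sub, PowerSeries.coeff_C_mul, h1, h2,
      PowerSeries.coeff_mk, mul_zero, add_zero]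
  · simp only [map_add, map_sub, PowerSeries.coeff_C_mul, PowerSeries.coeff_succ_X_mul,
      PowerSeries.coeff_mk]

/-- `(1 − T)(1 − qT) ∑ A_d T^d = ∑ lCoeff_d T^d` as power series. -/
theorem mul_mk_eq (q : ℤ) (A : ℕ → ℤ) :
    ((1 : PowerSeries ℤ) - PowerSeries.X) * (1 - PowerSeries.C q * PowerSeries.X) *
        PowerSeries.mk A = PowerSeries.mk (lCoeff q A) := by
  have hC : PowerSeries.C (q + 1) = PowerSeries.C q + (1 : PowerSeries ℤ) := by
    rw [map_add, map_one]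
  have e : ((1 : PowerSeries ℤ) - PowerSeries.X) * (1 - PowerSeries.C q * PowerSeries.X) *
        PowerSeries.mk A = PowerSeries.mk A - PowerSeries.C (q + 1) * (PowerSeries.X *
          PowerSeries.mk A) + PowerSeries.C q * (PowerSeries.X * (PowerSeries.X *
          PowerSeries.mk A)) := by
    rw [hC]; ring
  rw [e]
  ext n
  rw [coeff_aux, PowerSeries.coeff_mk]
  rcases n with _ | _ | n <;> rfl

/-- telescoping: `∑_{n ≤ N+1} lCoeff_n = A (N+1) − q A N`. -/
theorem sum_lCoeff (q : ℤ) (A : ℕ → ℤ) (N : ℕ) :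
    ∑ n ∈ Finset.range (N + 2), lCoeff q A n = A (N + 1) - q * A N := by
  induction N with
  | zero => simp [Finset.sum_range_succ]; ring
  | succ N ih =>
    rw [Finset.sum_range_succ, ih, lCoeff_add_two]; ring

section Main

variable {q g : ℕ} {h : ℤ} {A : ℕ → ℤ}

/-- the coefficients vanish beyond `2g`. -/
theorem lCoeff_eq_zero (hq : 2 ≤ q)
    (hst : ∀ d : ℕ, 2 * g ≤ d + 1 → ((q : ℤ) - 1) * A d = h * ((q : ℤ) ^ (d + 1 - g) - 1))
    {n : ℕ} (hn : 2 * g < n) : lCoeff (q : ℤ) A n = 0 := by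
  have hq1 : ((q : ℤ) - 1) ≠ 0 := by
    have : (2 : ℤ) ≤ q := by exact_mod_cast hq
    omega
  apply mul_left_cancel₀ hq1
  rw [mul_zero]
  rcases n with _ | _ | n
  · omega
  · -- `n = 1`, so `g = 0`
    have hg : g = 0 := by omega
    subst hg
    have h0 := hst 0 (by omega)
    have h1 := hst 1 (by omega)
    change ((q : ℤ) - 1) * (A 1 - ((q : ℤ) + 1) * A 0) = 0
    norm_num at h0 h1
    linear_combination h1 - ((q : ℤ) + 1) * h0
  · obtain ⟨e, he⟩ : ∃ e, n + 1 = g + e := ⟨n + 1 - g, by omega⟩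
    have h0 := hst n (by omega)
    have h1 := hst (n + 1) (by omega)
    have h2 := hst (n + 2) (by omega)
    rw [show n + 1 - g = e by omega] at h0
    rw [show n + 1 + 1 - g = e + 1 by omega] at h1
    rw [show n + 2 + 1 - g = e + 2 by omega] at h2
    change ((q : ℤ) - 1) * (A (n + 2) - ((q : ℤ) + 1) * A (n + 1) + (q : ℤ) * A n) = 0
    linear_combination h2 - ((q : ℤ) + 1) * h1 + (q : ℤ) * h0

/-- the coefficient of `T^{2g}` is `q^g`. -/
theorem lCoeff_two_mul (hq : 2 ≤ q) (ha0 : A 0 = 1)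
    (hst : ∀ d : ℕ, 2 * g ≤ d + 1 → ((q : ℤ) - 1) * A d = h * ((q : ℤ) ^ (d + 1 - g) - 1))
    (htop : 1 ≤ g → ((q : ℤ) - 1) * A (2 * g - 2) =
      (h - 1) * ((q : ℤ) ^ (g - 1) - 1) + ((q : ℤ) ^ g - 1)) :
    lCoeff (q : ℤ) A (2 * g) = (q : ℤ) ^ g := by
  have hq1 : ((q : ℤ) - 1) ≠ 0 := by
    have : (2 : ℤ) ≤ q := by exact_mod_cast hq
    omega
  rcases Nat.eq_zero_or_pos g with rfl | hg
  · simp [ha0]
  obtain ⟨g', rfl⟩ : ∃ g', g = g' + 1 := ⟨g - 1, by omega⟩
  apply mul_left_cancel₀ hq1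
  have h0 := htop (by omega)
  have h1 := hst (2 * (g' + 1) - 1) (by omega)
  have h2 := hst (2 * (g' + 1)) (by omega)
  rw [show 2 * (g' + 1) - 2 = 2 * g' by omega, show g' + 1 - 1 = g' by omega] at h0
  rw [show 2 * (g' + 1) - 1 = 2 * g' + 1 by omega,
    show 2 * g' + 1 + 1 - (g' + 1) = g' + 1 by omega] at h1
  rw [show 2 * (g' + 1) + 1 - (g' + 1) = g' + 2 by omega] at h2
  rw [show 2 * (g' + 1) = 2 * g' + 2 by ring, lCoeff_add_two]
  rw [show 2 * (g' + 1) = 2 * g' + 2 by ring] at h2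
  linear_combination h2 - ((q : ℤ) + 1) * h1 + (q : ℤ) * h0

/-- `∑_{n ≤ 2g} lCoeff_n = h`. -/
theorem sum_lCoeff_eq (hq : 2 ≤ q)
    (hst : ∀ d : ℕ, 2 * g ≤ d + 1 → ((q : ℤ) - 1) * A d = h * ((q : ℤ) ^ (d + 1 - g) - 1)) :
    ∑ n ∈ Finset.range (2 * g + 1), lCoeff (q : ℤ) A n = h := by
  have hq1 : ((q : ℤ) - 1) ≠ 0 := by
    have : (2 : ℤ) ≤ q := by exact_mod_cast hq
    omega
  apply mul_left_cancel₀ hq1
  rcases Nat.eq_zero_or_pos g with rfl | hg
  · have h0 := hst 0 (by omega)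
    simp only [mul_zero, zero_add, Finset.range_one, Finset.sum_singleton, lCoeff_zero]
    norm_num at h0
    linear_combination h0
  obtain ⟨g', rfl⟩ : ∃ g', g = g' + 1 := ⟨g - 1, by omega⟩
  rw [show 2 * (g' + 1) + 1 = (2 * g' + 1) + 2 by ring, sum_lCoeff]
  have h1 := hst (2 * g' + 1) (by omega)
  have h2 := hst (2 * g' + 1 + 1) (by omega)
  rw [show 2 * g' + 1 + 1 - (g' + 1) = g' + 1 by omega] at h1
  rw [show 2 * g' + 1 + 1 + 1 - (g' + 1) = g' + 2 by omega] at h2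
  linear_combination h2 - (q : ℤ) * h1

/-- **A4, abstract form.** From `(a0)`, `(st)`, `(top)`: `(1 − T)(1 − qT) ∑ A_d T^d` is a
polynomial `L` with `L(0) = 1`, `L(1) = h`, `deg L = 2g`, leading coefficient `q^g`. -/
theorem exists_lPolynomial (hq : 2 ≤ q) (ha0 : A 0 = 1)
    (hst : ∀ d : ℕ, 2 * g ≤ d + 1 → ((q : ℤ) - 1) * A d = h * ((q : ℤ) ^ (d + 1 - g) - 1))
    (htop : 1 ≤ g → ((q : ℤ) - 1) * A (2 * g - 2) =
      (h - 1) * ((q : ℤ) ^ (g - 1) - 1) + ((q : ℤ) ^ g - 1)) :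
    ∃ L : ℤ[X],
      ((1 : PowerSeries ℤ) - PowerSeries.X) * (1 - PowerSeries.C (q : ℤ) * PowerSeries.X) *
          PowerSeries.mk A = (L : PowerSeries ℤ) ∧
      L.coeff 0 = 1 ∧ L.eval 1 = h ∧ L.natDegree = 2 * g ∧ L.leadingCoeff = (q : ℤ) ^ g ∧
      ∀ n, L.coeff n = lCoeff (q : ℤ) A n := by
  set L : ℤ[X] := PowerSeries.trunc (2 * g + 1) (PowerSeries.mk (lCoeff (q : ℤ) A)) with hL
  have hcoeff : ∀ n, L.coeff n = lCoeff (q : ℤ) A n := by
    intro n
    rw [hL, PowerSeries.coeff_trunc]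
    split_ifs with hn
    · simp
    · exact (lCoeff_eq_zero hq hst (by omega)).symm
  have htopc : L.coeff (2 * g) = (q : ℤ) ^ g := by
    rw [hcoeff, lCoeff_two_mul hq ha0 hst htop]
  have hqg : (q : ℤ) ^ g ≠ 0 := pow_ne_zero _ (by positivity)
  have hdeg : L.natDegree = 2 * g := by
    apply le_antisymm
    · rw [Polynomial.natDegree_le_iff_coeff_eq_zero]
      intro n hn
      rw [hcoeff]
      exact lCoeff_eq_zero hq hst hn
    · exact Polynomial.le_natDegree_of_ne_zero (by rw [htopc]; exact hqg)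
  refine ⟨L, ?_, ?_, ?_, hdeg, ?_, hcoeff⟩
  · rw [mul_mk_eq]
    ext n
    rw [Polynomial.coeff_coe, hcoeff, PowerSeries.coeff_mk]
  · rw [hcoeff, lCoeff_zero, ha0]
  · rw [Polynomial.eval_eq_sum_range, hdeg]
    simp only [one_pow, mul_one, hcoeff]
    exact sum_lCoeff_eq hq hst
  · rw [Polynomial.leadingCoeff, hdeg, htopc]

end Main

end Fermat.Agent.GJ27.ZRR
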