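/-
GATE-J27 / A4 (GJ27-ZRR), middle layer (Mathlib only): from class-by-class counting to the three
inputs `(a0) (st) (top)` of `ZRR/Abstract.lean`.

`ClassCount q g h` packages what A0 + A1 + A3 give about the `𝔽_q`-rational divisor classes of
degree `d ≥ 0` of a function field of genus `g`:
* there are exactly `h` classes in each degree (`Fintype.card (Cl d) = h`);
* a class `C` of dimension `ℓ(C)` contains `(q^ℓ(C) − 1)/(q − 1) = ∑_{i < ℓ(C)} q^i` effective
  rational divisors;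
* degree `0`: exactly one class has `ℓ = 1` (the trivial one), the others `ℓ = 0`;
* degree `d ≥ 2g − 1`: `ℓ = d + 1 − g`;
* degree `2g − 2` (`g ≥ 1`): exactly one class has `ℓ = g` (the canonical one), the others
  `ℓ = g − 1`.
-/
import Mathlib
import Fermat.Agent.GJ27.ZRR.Abstract

set_option autoImplicit false

open Polynomial

namespace Fermat.Agent.GJ27.ZRR

universe u

/-- Class-by-class counting data (output of A0 + A1 + A3, input of A4). -/
structure ClassCount (q g h : ℕ) where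
  /-- the rational divisor classes of degree `d` -/
  Cl : ℕ → Type u
  instFintype : ∀ d, Fintype (Cl d)
  instDecEq : ∀ d, DecidableEq (Cl d)
  card_Cl : ∀ d, Fintype.card (Cl d) = h
  /-- the dimension `ℓ(C)` -/
  ell : ∀ d, Cl d → ℕ
  /-- the trivial class -/
  triv : Cl 0
  ell_triv : ell 0 triv = 1
  ell_zero : ∀ C : Cl 0, C ≠ triv → ell 0 C = 0
  ell_stable : ∀ d, 2 * g ≤ d + 1 → ∀ C : Cl d, ell d C = d + 1 - g
  /-- the canonical class -/
  canon : 1 ≤ g → Cl (2 * g - 2)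
  ell_canon : ∀ hg : 1 ≤ g, ell (2 * g - 2) (canon hg) = g
  ell_top : ∀ hg : 1 ≤ g, ∀ C : Cl (2 * g - 2), C ≠ canon hg → ell (2 * g - 2) C = g - 1

attribute [instance] ClassCount.instFintype ClassCount.instDecEq

namespace ClassCount

variable {q g h : ℕ} (D : ClassCount q g h)

/-- the number of effective rational divisors of degree `d`. -/
def numEff (d : ℕ) : ℤ := ∑ C : D.Cl d, ∑ i ∈ Finset.range (D.ell d C), (q : ℤ) ^ i

theorem sub_one_mul_numEff (d : ℕ) :
    ((q : ℤ) - 1) * D.numEff d = ∑ C : D.Cl d, ((q : ℤ) ^ (D.ell d C) - 1) := by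
  unfold numEff
  rw [Finset.mul_sum]
  refine Finset.sum_congr rfl fun C _ => ?_
  rw [mul_comm, geom_sum_mul]

theorem numEff_zero : D.numEff 0 = 1 := by
  unfold numEff
  rw [Finset.sum_eq_single D.triv]
  · rw [D.ell_triv]; simp
  · intro C _ hC
    rw [D.ell_zero C hC]; simp
  · intro h; exact absurd (Finset.mem_univ _) h

theorem numEff_stable (d : ℕ) (hd : 2 * g ≤ d + 1) :
    ((q : ℤ) - 1) * D.numEff d = (h : ℤ) * ((q : ℤ) ^ (d + 1 - g) - 1) := by
  rw [D.sub_one_mul_numEff]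
  rw [Finset.sum_congr rfl (fun C _ => by rw [D.ell_stable d hd C])]
  rw [Finset.sum_const, Finset.card_univ, D.card_Cl, nsmul_eq_mul]

theorem numEff_top (hg : 1 ≤ g) :
    ((q : ℤ) - 1) * D.numEff (2 * g - 2) =
      ((h : ℤ) - 1) * ((q : ℤ) ^ (g - 1) - 1) + ((q : ℤ) ^ g - 1) := by
  rw [D.sub_one_mul_numEff]
  rw [← Finset.add_sum_erase Finset.univ _ (Finset.mem_univ (D.canon hg)), D.ell_canon hg]
  rw [Finset.sum_congr rfl (fun C hC => by
    rw [D.ell_top hg C (Finset.ne_of_mem_erase hC)])]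
  rw [Finset.sum_const, Finset.card_erase_of_mem (Finset.mem_univ _), Finset.card_univ, D.card_Cl,
    nsmul_eq_mul]
  have h1 : 1 ≤ h := by
    rw [← D.card_Cl (2 * g - 2)]
    exact Fintype.card_pos_iff.mpr ⟨D.canon hg⟩
  rw [Nat.cast_sub h1, Nat.cast_one]
  ring

/-- **A4 from class counting.** -/
theorem exists_lPolynomial (hq : 2 ≤ q) :
    ∃ L : ℤ[X],
      ((1 : PowerSeries ℤ) - PowerSeries.X) * (1 - PowerSeries.C (q : ℤ) * PowerSeries.X) *
          PowerSeries.mk D.numEff = (L : PowerSeries ℤ) ∧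
      L.coeff 0 = 1 ∧ L.eval 1 = (h : ℤ) ∧ L.natDegree = 2 * g ∧
        L.leadingCoeff = (q : ℤ) ^ g :=
  let ⟨L, h1, h2, h3, h4, h5, _⟩ := ZRR.exists_lPolynomial (h := (h : ℤ)) hq D.numEff_zero
    D.numEff_stable D.numEff_top
  ⟨L, h1, h2, h3, h4, h5⟩

end ClassCount

end Fermat.Agent.GJ27.ZRR
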