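/-
GATE-J27 / A4 (GJ27-ZRR), frame plug (helper1): the `L`-polynomial of a function field `Ft / k`
with a Frobenius `g : SemilinearAut k Ft`, in HYPOTHESIS FORM (Prelude vocabulary).

Inputs (binders; the owners of A0 / A1 / A3 discharge them):
* A0 : finitely many `g ^ j`-fixed places (`hfin`), finitely many `g`-fixed classes (`hCl`),
       an invariant place `O` (`hO`; WLOG after replacing `g` by a power), all places of degree `1`;
* A1 : `hcount` : an invariant divisor `D` has `(q ^ ℓ(D) - 1) / (q - 1)` invariant effective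
       divisors in its class;  `hH90` : an invariant class contains an invariant divisor;
* A3 : Riemann–Roch consequences (`hst`, `h0p`, `h0n`, `hW`, `htp`, `htn`).

Output: `exists_lPolynomial_of_frame` : the generating series of the numbers of invariant effective
divisors (helper94's `ZComb.invEffFin`) times `(1 - X)(1 - qX)` is a polynomial `L` with
`L(0) = 1`, `L(1) = #{x : Pic0 | g • x = x}`, `deg L = 2 * gen`, leading coefficient `q ^ gen`.
-/
import Mathlib
import Fermat.Prelude.Def_AlgebraicCurve_BaseChangeGalois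
import Fermat.Agent.RR.RiemannInst
import Fermat.Agent.GH.Gal.ChartTransport
import Fermat.Agent.GJ27.ZComb
import Fermat.Agent.GJ27.ZRR.ClassCount

set_option autoImplicit false

noncomputable section

open AlgebraicCurve Polynomial

namespace Fermat.Agent.GJ27.ZRR.Frame

open Fermat.Agent.GJ27.ZComb Fermat.Agent.RRh45

variable {k Ft : Type*} [Field k] [Field Ft] [Algebra k Ft]

/-! ### effective divisors `Place →₀ ℕ` versus divisors `Place →₀ ℤ` -/

/-- an effective divisor with natural coefficients, as a divisor. -/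
def toZ (E : Place k Ft →₀ ℕ) : Divisor k Ft :=
  Finsupp.mapRange ((↑) : ℕ → ℤ) Nat.cast_zero E

@[simp] theorem toZ_apply (E : Place k Ft →₀ ℕ) (v : Place k Ft) : toZ E v = (E v : ℤ) :=
  Finsupp.mapRange_apply (hf := Nat.cast_zero)

theorem toZ_injective : Function.Injective (toZ (k := k) (Ft := Ft)) :=
  Finsupp.mapRange_injective _ Nat.cast_zero Nat.cast_injective

theorem toZ_nonneg (E : Place k Ft →₀ ℕ) : 0 ≤ toZ E := by
  intro v
  simp

/-- the natural-coefficient divisor of a divisor (negative coefficients are cut off). -/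
def toN (D : Divisor k Ft) : Place k Ft →₀ ℕ :=
  Finsupp.mapRange Int.toNat Int.toNat_zero D

@[simp] theorem toN_apply (D : Divisor k Ft) (v : Place k Ft) : toN D v = (D v).toNat :=
  Finsupp.mapRange_apply (hf := Int.toNat_zero)

theorem toZ_toN {D : Divisor k Ft} (h : 0 ≤ D) : toZ (toN D) = D := by
  ext v
  rw [toZ_apply, toN_apply]
  exact Int.toNat_of_nonneg (h v)

theorem degree_toZ (hdeg : ∀ v : Place k Ft, v.deg = 1) (E : Place k Ft →₀ ℕ) :
    Divisor.degree (toZ E) = (E.degree : ℤ) := by
  induction E using Finsupp.induction with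
  | zero => simp [toZ]
  | single_add v n E _ _ ih =>
    have h1 : toZ (Finsupp.single v n + E) = Finsupp.single v (n : ℤ) + toZ E := by
      unfold toZ
      rw [Finsupp.mapRange_add Nat.cast_add, Finsupp.mapRange_single]
    rw [h1, map_add, map_add, ih, Divisor.degree_single, hdeg v, Finsupp.degree_single]
    push_cast
    ring

/-! ### invariance -/

theorem smul_eq_self_iff (g : SemilinearAut k Ft) (D : Divisor k Ft) :
    g • D = D ↔ ∀ v : Place k Ft, D (g • v) = D v := by
  constructor
  · intro h v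
    have := SemilinearAut.divisor_smul_apply_smul g D v
    rwa [h] at this
  · intro h
    ext w
    rw [SemilinearAut.divisor_smul_apply]
    have := h (g⁻¹ • w)
    rw [smul_inv_smul] at this
    exact this.symm

theorem isInv_iff (g : SemilinearAut k Ft) (τ : Equiv.Perm (Place k Ft))
    (hτ : ∀ v, τ v = g • v) (E : Place k Ft →₀ ℕ) :
    IsInv τ E ↔ g • toZ E = toZ E := by
  rw [smul_eq_self_iff]
  constructor
  · intro h v
    rw [toZ_apply, toZ_apply, ← hτ, h v]
  · intro h v
    have := h v
    rw [toZ_apply, toZ_apply, ← hτ] at this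
    exact_mod_cast this

/-! ### the frame -/

section Frame

variable (g : SemilinearAut k Ft) (τ : Equiv.Perm (Place k Ft)) (hτ : ∀ v, τ v = g • v)
variable (hfin : ∀ j, 0 < j → (Function.fixedPoints ⇑(τ ^ j)).Finite)
variable (hdeg : ∀ v : Place k Ft, v.deg = 1)
variable (O : Place k Ft) (hO : g • O = O)

/-- the `g`-invariant classes of degree zero. -/
abbrev Fix : Type _ := {x : Pic0 k Ft // g • x = x}

variable (hH90 : ∀ x : Pic0 k Ft, g • x = x →
  ∃ D : Divisor.degZero (K := k) (F := Ft), g • (D : Divisor k Ft) = D ∧ Pic0.mk D = x)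

/-- an invariant representative of degree zero of an invariant class. -/
def rep (x : Fix g) : Divisor.degZero (K := k) (F := Ft) := Classical.choose (hH90 x.1 x.2)

theorem smul_rep (x : Fix g) : g • (rep g hH90 x : Divisor k Ft) = rep g hH90 x :=
  (Classical.choose_spec (hH90 x.1 x.2)).1

theorem mk_rep (x : Fix g) : Pic0.mk (rep g hH90 x) = x.1 :=
  (Classical.choose_spec (hH90 x.1 x.2)).2

/-- an invariant representative of degree `d` of the class `x + d • [O]`. -/
def cD (d : ℕ) (x : Fix g) : Divisor k Ft := (rep g hH90 x : Divisor k Ft) + Finsupp.single O (d : ℤ)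

include hO in
theorem smul_cD (d : ℕ) (x : Fix g) : g • cD g O hH90 d x = cD g O hH90 d x := by
  unfold cD
  rw [smul_add, smul_rep, SemilinearAut.smul_single, hO]

include hdeg in
theorem degree_cD (d : ℕ) (x : Fix g) : Divisor.degree (cD g O hH90 d x) = d := by
  unfold cD
  rw [map_add, Divisor.degree_single, hdeg O, Divisor.mem_degZero.mp (rep g hH90 x).2]
  simp

theorem mk_eq_mk_iff (D D' : Divisor.degZero (K := k) (F := Ft)) :
    Pic0.mk D = Pic0.mk D' ↔
      (D : Divisor k Ft) - D' ∈ Divisor.principal (K := k) (F := Ft) := by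
  unfold Pic0.mk
  rw [QuotientAddGroup.eq, AddSubgroup.mem_addSubgroupOf]
  have h1 : ((-D + D' : Divisor.degZero (K := k) (F := Ft)) : Divisor k Ft) =
      -((D : Divisor k Ft) - D') := by
    push_cast; abel
  rw [h1, neg_mem_iff]

theorem rep_sub_rep_mem_iff (x y : Fix g) :
    (rep g hH90 x : Divisor k Ft) - rep g hH90 y ∈ Divisor.principal (K := k) (F := Ft) ↔
      x = y := by
  rw [← mk_eq_mk_iff, mk_rep, mk_rep]
  exact Subtype.ext_iff.symm

/-- `E` lies in the class `x + d • [O]`. -/
def InClass (d : ℕ) (x : Fix g) (E : Place k Ft →₀ ℕ) : Prop :=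
  toZ E - cD g O hH90 d x ∈ Divisor.principal (K := k) (F := Ft)

include hτ hdeg hO in
theorem existsUnique_inClass {d : ℕ} {E : Place k Ft →₀ ℕ} (hE : IsInv τ E) (hd : E.degree = d) :
    ∃! x : Fix g, InClass g O hH90 d x E := by
  have hE' : g • toZ E = toZ E := (isInv_iff g τ hτ E).1 hE
  have hdeg0 : toZ E - Finsupp.single O (d : ℤ) ∈ Divisor.degZero (K := k) (F := Ft) := by
    rw [Divisor.mem_degZero, map_sub, degree_toZ hdeg, Divisor.degree_single, hdeg O, hd]
    simp
  set D0 : Divisor.degZero (K := k) (F := Ft) := ⟨_, hdeg0⟩ with hD0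
  have hx : g • Pic0.mk D0 = Pic0.mk D0 := by
    rw [SemilinearAut.pic0_smul_mk]
    congr 1
    apply Subtype.ext
    rw [SemilinearAut.coe_degZeroSMulHom, hD0]
    show g • (toZ E - Finsupp.single O (d : ℤ)) = _
    rw [smul_sub, hE', SemilinearAut.smul_single, hO]
  have key : ∀ y : Fix g, InClass g O hH90 d y E ↔ y.1 = Pic0.mk D0 := by
    intro y
    rw [← mk_rep g hH90 y, mk_eq_mk_iff, InClass, cD]
    have h2 : toZ E - ((rep g hH90 y : Divisor k Ft) + Finsupp.single O (d : ℤ)) =
        -((rep g hH90 y : Divisor k Ft) - (D0 : Divisor k Ft)) := by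
      rw [hD0]
      show _ = -((rep g hH90 y : Divisor k Ft) - (toZ E - Finsupp.single O (d : ℤ)))
      abel
    rw [h2, neg_mem_iff]
  refine ⟨⟨Pic0.mk D0, hx⟩, (key _).2 rfl, fun y hy => ?_⟩
  exact Subtype.ext ((key y).1 hy)

open Classical in
include hτ hdeg hO in
/-- the invariant effective divisors of degree `d`, sorted by class. -/
theorem card_invEffFin_eq_sum [Fintype (Fix g)] (d : ℕ) :
    (invEffFin τ hfin d).card =
      ∑ x : Fix g, ((invEffFin τ hfin d).filter (InClass g O hH90 d x)).card := by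
  have h1 : ∀ E ∈ invEffFin τ hfin d,
      (∑ x : Fix g, if InClass g O hH90 d x E then 1 else 0) = 1 := by
    intro E hE
    rw [mem_invEffFin τ hfin] at hE
    obtain ⟨x, hx, hux⟩ := existsUnique_inClass g τ hτ hdeg O hO hH90 hE.1 hE.2
    rw [Finset.sum_eq_single_of_mem x (Finset.mem_univ _)]
    · rw [if_pos hx]
    · intro y _ hy
      rw [if_neg]
      intro hy'
      exact hy (hux y hy')
  calc (invEffFin τ hfin d).card = ∑ E ∈ invEffFin τ hfin d, 1 := by simp
    _ = ∑ E ∈ invEffFin τ hfin d, ∑ x : Fix g, if InClass g O hH90 d x E then 1 else 0 :=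
        Finset.sum_congr rfl fun E hE => (h1 E hE).symm
    _ = ∑ x : Fix g, ∑ E ∈ invEffFin τ hfin d, if InClass g O hH90 d x E then 1 else 0 :=
        Finset.sum_comm
    _ = _ := by
        refine Finset.sum_congr rfl fun x _ => ?_
        rw [Finset.card_filter]

open Classical in
include hτ hdeg in
/-- the fibre over a class, in the spelling of A1. -/
theorem card_filter_inClass [HasPrincipalDivisors k Ft] (d : ℕ) (x : Fix g) :
    ((invEffFin τ hfin d).filter (InClass g O hH90 d x)).card =
      Nat.card {E : Divisor k Ft // 0 ≤ E ∧ g • E = E ∧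
        E - cD g O hH90 d x ∈ Divisor.principal (K := k) (F := Ft)} := by
  rw [← Nat.card_eq_finsetCard]
  refine Nat.card_congr (Equiv.ofBijective
    (fun E => ⟨toZ E.1, toZ_nonneg _, ?_, ?_⟩) ⟨?_, ?_⟩)
  · have := (Finset.mem_filter.1 E.2).1
    rw [mem_invEffFin τ hfin] at this
    exact (isInv_iff g τ hτ _).1 this.1
  · exact (Finset.mem_filter.1 E.2).2
  · intro E E' h
    exact Subtype.ext (toZ_injective (congrArg Subtype.val h))
  · rintro ⟨E, hE0, hEg, hEc⟩
    have hEN : toZ (toN E) = E := toZ_toN hE0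
    refine ⟨⟨toN E, Finset.mem_filter.2 ⟨(mem_invEffFin τ hfin).2 ⟨?_, ?_⟩, ?_⟩⟩, ?_⟩
    · rw [isInv_iff g τ hτ, hEN]; exact hEg
    · have h1 : Divisor.degree E = d := by
        have := Fermat.Agent.RR.Inst.degree_eq_zero_of_principal hEc
        rw [map_sub, degree_cD g hdeg O hH90] at this
        linarith
      have h2 := degree_toZ hdeg (toN E)
      rw [hEN, h1] at h2
      exact_mod_cast h2.symm
    · show toZ (toN E) - _ ∈ _
      rw [hEN]; exact hEc
    · exact Subtype.ext hEN

/-! ### the class-counting data -/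

variable (q gen : ℕ)
variable (hcount : ∀ D : Divisor k Ft, g • D = D →
  ((q : ℤ) - 1) * (Nat.card {E : Divisor k Ft // 0 ≤ E ∧ g • E = E ∧
      E - D ∈ Divisor.principal (K := k) (F := Ft)} : ℤ) =
    (q : ℤ) ^ (Module.finrank k (riemannRochSpace D)) - 1)
variable (hst : ∀ D : Divisor k Ft, 2 * (gen : ℤ) - 1 ≤ Divisor.degree D →
  (Module.finrank k (riemannRochSpace D) : ℤ) = Divisor.degree D + 1 - gen)
variable (h0p : ∀ E : Divisor k Ft, Divisor.degree E = 0 →
  E ∈ Divisor.principal (K := k) (F := Ft) → Module.finrank k (riemannRochSpace E) = 1)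
variable (h0n : ∀ E : Divisor k Ft, Divisor.degree E = 0 →
  E ∉ Divisor.principal (K := k) (F := Ft) → Module.finrank k (riemannRochSpace E) = 0)
variable (W : Divisor k Ft) (hW : Divisor.degree W = 2 * (gen : ℤ) - 2)
variable (htp : ∀ D : Divisor k Ft, Divisor.degree D = 2 * (gen : ℤ) - 2 →
  D - W ∈ Divisor.principal (K := k) (F := Ft) → Module.finrank k (riemannRochSpace D) = gen)
variable (htn : ∀ D : Divisor k Ft, Divisor.degree D = 2 * (gen : ℤ) - 2 →
  D - W ∉ Divisor.principal (K := k) (F := Ft) →
  (Module.finrank k (riemannRochSpace D) : ℤ) = (gen : ℤ) - 1)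

include hW htp htn in
/-- the canonical class is invariant. -/
theorem smul_canonical_sub_mem : g • W - W ∈ Divisor.principal (K := k) (F := Ft) := by
  by_contra hcon
  have h1 := htn (g • W) (by rw [SemilinearAut.degree_smul, hW]) hcon
  have h2 := htp W hW (by rw [sub_self]; exact zero_mem _)
  rw [Fermat.Agent.GH.Gal.finrank_riemannRochSpace_smul, h2] at h1
  linarith

/-- the canonical divisor minus `(2 gen - 2) • O`, of degree zero. -/
def canonZero (hdeg : ∀ v : Place k Ft, v.deg = 1) (O : Place k Ft) (gen : ℕ) (W : Divisor k Ft)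
    (hW : Divisor.degree W = 2 * (gen : ℤ) - 2) : Divisor.degZero (K := k) (F := Ft) :=
  ⟨W - Finsupp.single O (2 * (gen : ℤ) - 2), by
    rw [Divisor.mem_degZero, map_sub, Divisor.degree_single, hdeg O, hW]; simp⟩

include hO hW htp htn in
theorem smul_mk_canonZero :
    g • Pic0.mk (canonZero hdeg O gen W hW) = Pic0.mk (canonZero hdeg O gen W hW) := by
  rw [SemilinearAut.pic0_smul_mk, mk_eq_mk_iff, SemilinearAut.coe_degZeroSMulHom]
  have h := smul_canonical_sub_mem g gen W hW htp htn
  have h2 : g • (canonZero hdeg O gen W hW : Divisor k Ft) - canonZero hdeg O gen W hW =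
      g • W - W := by
    show g • (W - Finsupp.single O (2 * (gen : ℤ) - 2)) - (W - Finsupp.single O (2 * (gen : ℤ) - 2))
      = _
    rw [smul_sub, SemilinearAut.smul_single, hO]
    abel
  rw [h2]; exact h

omit hH90 in
theorem coe_canonZero :
    (canonZero hdeg O gen W hW : Divisor k Ft) = W - Finsupp.single O (2 * (gen : ℤ) - 2) := rfl

theorem cD_sub_canonical {m : ℕ} (hm : (m : ℤ) = 2 * (gen : ℤ) - 2) (x : Fix g) :
    cD g O hH90 m x - W = (rep g hH90 x : Divisor k Ft) - canonZero hdeg O gen W hW := by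
  rw [coe_canonZero, cD, hm]
  abel

theorem cD_zero (x : Fix g) : cD g O hH90 0 x = rep g hH90 x := by
  simp [cD]

theorem rep_mem_principal_iff (x : Fix g) :
    (rep g hH90 x : Divisor k Ft) ∈ Divisor.principal (K := k) (F := Ft) ↔ x.1 = 0 := by
  rw [← mk_rep g hH90 x, ← Pic0.mk_zero, mk_eq_mk_iff]
  simp

include hO htp htn in
/-- the canonical class shifted to degree zero, as an invariant class. -/
def canonFix : Fix g :=
  ⟨Pic0.mk (canonZero hdeg O gen W hW), smul_mk_canonZero g hdeg O hO gen W hW htp htn⟩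

omit hH90 in
theorem coe_canonFix :
    (canonFix g hdeg O hO gen W hW htp htn).1 = Pic0.mk (canonZero hdeg O gen W hW) := rfl

variable (hCl : {x : Pic0 k Ft | g • x = x}.Finite)

include hO hdeg hst h0p h0n htp htn in
/-- **the class-counting data of the frame.** -/
def classCount : ClassCount q gen (Nat.card (Fix g)) where
  Cl _ := Fix g
  instFintype _ := @Fintype.ofFinite _ hCl.to_subtype
  instDecEq _ := Classical.decEq _
  card_Cl _ := (@Nat.card_eq_fintype_card _ (@Fintype.ofFinite _ hCl.to_subtype)).symm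
  ell d x := Module.finrank k (riemannRochSpace (cD g O hH90 d x))
  triv := ⟨0, smul_zero (A := Pic0 k Ft) g⟩
  ell_triv := by
    rw [cD_zero]
    exact h0p _ (Divisor.mem_degZero.mp (rep g hH90 _).2) ((rep_mem_principal_iff g hH90 _).2 rfl)
  ell_zero := by
    intro x hx
    rw [cD_zero]
    refine h0n _ (Divisor.mem_degZero.mp (rep g hH90 _).2) fun hmem => hx ?_
    exact Subtype.ext ((rep_mem_principal_iff g hH90 _).1 hmem)
  ell_stable := by
    intro d hd x
    have h := hst (cD g O hH90 d x) (by rw [degree_cD g hdeg O hH90]; omega)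
    rw [degree_cD g hdeg O hH90] at h
    omega
  canon _ := canonFix g hdeg O hO gen W hW htp htn
  ell_canon := by
    intro hg
    have hm : ((2 * gen - 2 : ℕ) : ℤ) = 2 * (gen : ℤ) - 2 := by omega
    refine htp _ (by rw [degree_cD g hdeg O hH90, hm]) ?_
    rw [cD_sub_canonical g hdeg O hH90 gen W hW hm, ← mk_eq_mk_iff, mk_rep, coe_canonFix]
  ell_top := by
    intro hg x hx
    have hm : ((2 * gen - 2 : ℕ) : ℤ) = 2 * (gen : ℤ) - 2 := by omega
    have h := htn (cD g O hH90 (2 * gen - 2) x) (by rw [degree_cD g hdeg O hH90, hm]) ?_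
    · omega
    · rw [cD_sub_canonical g hdeg O hH90 gen W hW hm, ← mk_eq_mk_iff, mk_rep]
      intro h
      exact hx (Subtype.ext (h.trans (coe_canonFix g hdeg O hO gen W hW htp htn).symm))

include hτ hcount in
/-- the number of invariant effective divisors of degree `d` is the `numEff` of the class count. -/
theorem card_invEffFin_eq_numEff [HasPrincipalDivisors k Ft] (hq : 2 ≤ q) (d : ℕ) :
    ((invEffFin τ hfin d).card : ℤ) =
      (classCount g hdeg O hO hH90 q gen hst h0p h0n W hW htp htn hCl).numEff d := by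
  classical
  set CC := classCount g hdeg O hO hH90 q gen hst h0p h0n W hW htp htn hCl with hCC
  have hq1 : ((q : ℤ) - 1) ≠ 0 := by
    have : (2 : ℤ) ≤ q := by exact_mod_cast hq
    linarith
  apply mul_left_cancel₀ hq1
  rw [CC.sub_one_mul_numEff]
  let _ : Fintype (Fix g) := CC.instFintype d
  rw [card_invEffFin_eq_sum g τ hτ hfin hdeg O hO hH90 d]
  push_cast
  rw [Finset.mul_sum]
  refine Finset.sum_congr rfl fun x _ => ?_
  rw [card_filter_inClass g τ hτ hfin hdeg O hH90 d x]
  exact hcount _ (smul_cD g O hO hH90 d x)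

end Frame

/-- **A4, frame plug (hypothesis form).**  `g` a Frobenius (`q`-semilinear automorphism) of the
function field `Ft / k` with an invariant place `O`; all places of degree one; `τ` the permutation
of the places given by `g`.  From the counting of invariant effective divisors in invariant
classes (`hcount`, `hH90` : node A1), finiteness (`hfin`, `hCl` : node A0) and the Riemann–Roch
consequences (`hst … htn` : node A3), the zeta series of `τ` times `(1 - X)(1 - qX)` is a
polynomial `L` with `L(0) = 1`, `L(1) = #Pic0^g`, `deg L = 2 gen`, leading coefficient `q ^ gen`. -/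
theorem exists_lPolynomial_of_frame [HasPrincipalDivisors k Ft]
    (g : SemilinearAut k Ft) (τ : Equiv.Perm (Place k Ft)) (hτ : ∀ v, τ v = g • v)
    (hfin : ∀ j, 0 < j → (Function.fixedPoints ⇑(τ ^ j)).Finite)
    (hdeg : ∀ v : Place k Ft, v.deg = 1)
    (O : Place k Ft) (hO : g • O = O)
    (hCl : {x : Pic0 k Ft | g • x = x}.Finite)
    (q gen : ℕ) (hq : 2 ≤ q)
    (hcount : ∀ D : Divisor k Ft, g • D = D →
      ((q : ℤ) - 1) * (Nat.card {E : Divisor k Ft // 0 ≤ E ∧ g • E = E ∧
          E - D ∈ Divisor.principal (K := k) (F := Ft)} : ℤ) =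
        (q : ℤ) ^ (Module.finrank k (riemannRochSpace D)) - 1)
    (hH90 : ∀ x : Pic0 k Ft, g • x = x →
      ∃ D : Divisor.degZero (K := k) (F := Ft), g • (D : Divisor k Ft) = D ∧ Pic0.mk D = x)
    (hst : ∀ D : Divisor k Ft, 2 * (gen : ℤ) - 1 ≤ Divisor.degree D →
      (Module.finrank k (riemannRochSpace D) : ℤ) = Divisor.degree D + 1 - gen)
    (h0p : ∀ E : Divisor k Ft, Divisor.degree E = 0 →
      E ∈ Divisor.principal (K := k) (F := Ft) → Module.finrank k (riemannRochSpace E) = 1)
    (h0n : ∀ E : Divisor k Ft, Divisor.degree E = 0 →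
      E ∉ Divisor.principal (K := k) (F := Ft) → Module.finrank k (riemannRochSpace E) = 0)
    (W : Divisor k Ft) (hW : Divisor.degree W = 2 * (gen : ℤ) - 2)
    (htp : ∀ D : Divisor k Ft, Divisor.degree D = 2 * (gen : ℤ) - 2 →
      D - W ∈ Divisor.principal (K := k) (F := Ft) →
      Module.finrank k (riemannRochSpace D) = gen)
    (htn : ∀ D : Divisor k Ft, Divisor.degree D = 2 * (gen : ℤ) - 2 →
      D - W ∉ Divisor.principal (K := k) (F := Ft) →
      (Module.finrank k (riemannRochSpace D) : ℤ) = (gen : ℤ) - 1) :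
    ∃ L : ℤ[X],
      ((1 : PowerSeries ℤ) - PowerSeries.X) * (1 - PowerSeries.C (q : ℤ) * PowerSeries.X) *
          PowerSeries.mk (fun d => ((invEffFin τ hfin d).card : ℤ)) = (L : PowerSeries ℤ) ∧
      L.coeff 0 = 1 ∧ L.eval 1 = (Nat.card {x : Pic0 k Ft // g • x = x} : ℤ) ∧
        L.natDegree = 2 * gen ∧ L.leadingCoeff = (q : ℤ) ^ gen := by
  have key : (fun d => ((invEffFin τ hfin d).card : ℤ)) =
      (classCount g hdeg O hO hH90 q gen hst h0p h0n W hW htp htn hCl).numEff := by
    funext d
    exact card_invEffFin_eq_numEff g τ hτ hfin hdeg O hO hH90 q gen hcount hst h0p h0n W hW htp htn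
      hCl hq d
  rw [key]
  exact (classCount g hdeg O hO hH90 q gen hst h0p h0n W hW htp htn hCl).exists_lPolynomial hq

end Fermat.Agent.GJ27.ZRR.Frame
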