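/-
GATE-J27 / A4 (GJ27-ZRR), final plug (helper1): the binder `LPolyStmt` of `GJ27/Count/Contract.lean`
in the `CountStmt` frame, for a Frobenius structure WITH AN INVARIANT PLACE.

`exists_lPolynomial_of_frame` (`ZRR/Frame.lean`) with its binders discharged by the landed nodes:
* A0 (helper3)  : `FrobStr.semiAut`, `perm`, `finite_fixed_pic0_pow`;
* A1 (helper56) : `Desc.card_invEffSet_mul_int`, `Desc.exists_invariant_rep`;
* A3 (helper90 / helper70) : `RRDual.exists_canonical`, `degree_canonical`,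
  `finrank_eq_of_le_degree`, `genusFF_eq_of_riemann`, `RRCons.ell_of_degree_zero`, `ell_of_top_one`;
* `ℓ(0) = 1` : `GH/G6.finrank_riemannRochSpace_zero`.

An invariant place exists after passing to a power of the Frobenius (`FrobStr.exists_fixed_place`),
and the count of `CountStmt` does not depend on the Frobenius: `countStmt_of_normStmt` is `CountStmt`
from the norm binder (A6) alone.
-/
import Mathlib
import Fermat.Agent.GJ27.ZRR.Frame
import Fermat.Agent.GJ27.Desc.InvEff
import Fermat.Agent.GJ27.Desc.Cl0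
import Fermat.Agent.GJ27.RRDual.Duality
import Fermat.Agent.GJ27.RRCons
import Fermat.Agent.GH.G6.Family
import Fermat.Agent.GJ27.Count.Contract

set_option autoImplicit false
set_option linter.unusedSectionVars false

noncomputable section

open AlgebraicCurve

namespace Fermat.Agent.GJ27.ZRR.Plug

open Fermat.Agent.RRh45 Fermat.Agent.S24 Fermat.Agent.GJ27 Fermat.Agent.GJ27.Count

universe u

section Frame

variable {p : ℕ} [hp : Fact p.Prime] {k Ft : Type*} [Field k] [Field Ft] [Algebra k Ft]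
  [IsAlgClosed k] [CharP k p] [FiniteResidues k Ft] [HasPrincipalDivisors k Ft]
  [Nonempty (Place k Ft)]

/-- **A4 in the `CountStmt` frame**, for a Frobenius structure with an invariant place. -/
theorem lPolyStmt_of_fixed_place (Φ : FrobStr p k Ft) (g : ℕ) (c : ℤ)
    (hdeg : ∀ Q : Place k Ft, Q.deg = 1)
    (hRiem : ∀ E : Divisor k Ft, c ≤ Divisor.degree E →
      (Module.finrank k (riemannRochSpace E) : ℤ) = Divisor.degree E + 1 - g)
    (O : Place k Ft) (hO : Φ.semiAut • O = O) :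
    LPolyStmt Φ g (hfinPerm Φ hdeg) := by
  have h0 : Module.finrank k (riemannRochSpace (0 : Divisor k Ft)) = 1 :=
    Fermat.Agent.GH.G6.finrank_riemannRochSpace_zero O (hdeg O)
  have hgen : (genusFF k Ft : ℤ) = g := RRDual.genusFF_eq_of_riemann h0 hRiem
  obtain rfl : genusFF k Ft = g := by exact_mod_cast hgen
  obtain ⟨W, hWcan⟩ := RRDual.exists_canonical (K := k) (F := Ft) h0
  have hCl : {x : Pic0 k Ft | Φ.semiAut • x = x}.Finite := by
    have := Φ.finite_fixed_pic0_pow hp.out.one_lt hdeg 1 one_pos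
    simpa using this
  have hq : 2 ≤ Φ.q := Φ.frobData.one_lt_q hp.out.one_lt
  have hqz : ((Φ.q : ℕ) : ℤ) = (p : ℤ) ^ Φ.f := by rw [FrobStr.q, Nat.cast_pow]
  obtain ⟨L, hL1, -, hL3, hL4, hL5⟩ :=
    Frame.exists_lPolynomial_of_frame Φ.semiAut Φ.perm Φ.perm_apply (hfinPerm Φ hdeg) hdeg O hO hCl
      Φ.q (genusFF k Ft) hq
      (fun D hD => by
        have h := Desc.card_invEffSet_mul_int Φ.frobData D hD
        rw [hqz, mul_comm]
        exact h)
      (fun x hx => Desc.exists_invariant_rep Φ.frobData x hx)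
      (fun D hD => RRDual.finrank_eq_of_le_degree h0 hD)
      (fun E hE hmem => ((RRCons.ell_of_degree_zero hE).1 hmem).trans h0)
      (fun E hE hmem => (RRCons.ell_of_degree_zero hE).2 hmem)
      W (RRDual.degree_canonical h0 hWcan)
      (fun D hD => (RRCons.ell_of_top_one W hWcan h0 hD).1)
      (fun D hD => (RRCons.ell_of_top_one W hWcan h0 hD).2)
  refine ⟨L, ?_, hL3, hL4, hL5⟩
  rw [← hL1]
  congr 1
  ext d
  rw [ZComb.coeff_Z, PowerSeries.coeff_mk]

/-- a place fixed by the Frobenius is fixed by its powers. -/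
theorem pow_semiAut_smul_eq (Φ : FrobStr p k Ft) {O : Place k Ft} (hO : Φ.semiAut • O = O)
    (n : ℕ) (hn : 0 < n) : (Φ.pow n hn).semiAut • O = O := by
  rw [FrobStr.pow_semiAut]
  clear hn
  induction n with
  | zero => simp
  | succ n ih => rw [pow_succ, mul_smul, hO, ih]

/-- **the count of `CountStmt` in the frame, from the norm statements (A6) of the powers.** -/
theorem card_torsion_of_normStmt (Φ : FrobStr p k Ft) (g : ℕ) (c : ℤ)
    (hdeg : ∀ Q : Place k Ft, Q.deg = 1)
    (hRiem : ∀ E : Divisor k Ft, c ≤ Divisor.degree E →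
      (Module.finrank k (riemannRochSpace E) : ℤ) = Divisor.degree E + 1 - g)
    (hA6 : ∀ (n : ℕ) (hn : 0 < n), NormStmt (Φ.pow n hn))
    (ℓ : ℕ) [Fact ℓ.Prime] (hℓp : ℓ ≠ p) (n : ℕ) :
    Nat.card (Pic0.torsion k Ft (ℓ ^ n)) = ℓ ^ (2 * g * n) := by
  obtain ⟨n₀, hn₀, O, hO⟩ := Φ.exists_fixed_place
  exact card_torsion_of_nodes (Φ.pow n₀ hn₀) g hdeg
    (fun m hm => lPolyStmt_of_fixed_place ((Φ.pow n₀ hn₀).pow m hm) g c hdeg hRiem O
      (pow_semiAut_smul_eq (Φ.pow n₀ hn₀) hO m hm))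
    (hA6 n₀ hn₀) ℓ hℓp n

end Frame

/-- **`CountStmt` from the norm binder (A6) alone**: A4 is discharged. -/
theorem countStmt_of_normStmt
    (hA6 : ∀ (p : ℕ) [Fact p.Prime] (k Ft : Type u) [Field k] [Field Ft] [Algebra k Ft]
      [IsAlgClosed k] [CharP k p] [FiniteResidues k Ft] [HasPrincipalDivisors k Ft]
      [Nonempty (Place k Ft)] (Φ : FrobStr p k Ft) (x₀ : Ft) [IsGen k x₀] (g : ℕ) (c : ℤ)
      (_ : ∀ Q : Place k Ft, Q.deg = 1)
      (_ : ∀ E : Divisor k Ft, c ≤ Divisor.degree E →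
        (Module.finrank k (riemannRochSpace E) : ℤ) = Divisor.degree E + 1 - g),
      NormStmt Φ) :
    CountStmt.{u} := by
  intro p _ k Ft _ _ _ _ _ _ _ _ Φ x₀ _ g c hdeg hRiem ℓ _ hℓp n
  exact card_torsion_of_normStmt Φ g c hdeg hRiem
    (fun m hm => hA6 p k Ft (Φ.pow m hm) x₀ g c hdeg hRiem) ℓ hℓp n

end Fermat.Agent.GJ27.ZRR.Plug
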