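/-
GATE-J27 (S27) / the COUNT binder is a theorem (helper1): `countStmt : CountStmt`.

`ZRR/Plug.countStmt_of_normStmt` (A4 discharged, passing to a power of the Frobenius with an
invariant place around helper47's `Count.card_torsion_of_nodes`) applied to helper68's
`Norm/NormStmtThm.hA6_countStmt` (A6).
-/
import Mathlib
import Fermat.Agent.GJ27.ZRR.Plug
import Fermat.Agent.GJ27.Norm.NormStmtThm

set_option autoImplicit false

namespace Fermat.Agent.GJ27.ZRR.CountStmtThm

universe u

/-- **COUNT**: over an algebraic closure of a finite field of characteristic `p ≠ ℓ`, a function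
field of genus `g` with a Frobenius structure has exactly `ℓ ^ (2 g n)` classes of degree zero
killed by `ℓ ^ n`. -/
theorem countStmt : Fermat.Agent.GJ27.CountStmt.{u} :=
  Fermat.Agent.GJ27.ZRR.Plug.countStmt_of_normStmt
    Fermat.Agent.GJ27.Norm.NormStmtThm.hA6_countStmt

end Fermat.Agent.GJ27.ZRR.CountStmtThm
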