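/-
GATE-J27 (S27) / node A4 (GJ27-ZRR), the (R) discharge (helper99): **the six Riemann–Roch binders
`hst h0p h0n W hW htp htn` of `ZRR/Frame.exists_lPolynomial_of_frame` (helper1)**, VERBATIM, from
the Riemann binder `(gen, c, hRiem)` of `CountStmt` and one place of degree one
(`RRDual/Duality` of helper90 + `genusFF_eq_of_riemann`).

* `finrank_zero_eq_one`  : `ℓ(0) = 1` from a place of degree one;
* `gen_eq_genusFF`       : `gen = genusFF k Ft` from `hRiem`;
* `exists_rr_binders`    : the six binders, in one statement;
* `rrBinders_of_riemann` : the same with `W` the chosen canonical divisor, as separate lemmas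
                           (`hst_of_riemann`, `h0p_of_riemann`, `h0n_of_riemann`, `canonW`,
                           `degree_canonW`, `htp_of_riemann`, `htn_of_riemann`).
-/
import Mathlib
import Fermat.Agent.GJ27.RRDual.Duality
import Fermat.Agent.GH.G6.Family

set_option autoImplicit false
set_option linter.unusedSectionVars false

noncomputable section

open AlgebraicCurve

namespace Fermat.Agent.GJ27.ZRR.RRBinders

open Fermat.Agent.RRh45 Fermat.Agent.RR Fermat.Agent.GJ27.RRDual

variable {k Ft : Type*} [Field k] [Field Ft] [Algebra k Ft]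
variable [FiniteResidues k Ft] [HasPrincipalDivisors k Ft] [Nonempty (Place k Ft)]

/-- `ℓ(0) = 1` when some place has degree one. -/
theorem finrank_zero_eq_one (O : Place k Ft) (hO : O.deg = 1) :
    Module.finrank k (riemannRochSpace (0 : Divisor k Ft)) = 1 :=
  Fermat.Agent.GH.G6.finrank_riemannRochSpace_zero O hO

/-- the genus of Riemann's theorem is `genusFF`. -/
theorem gen_eq_genusFF (O : Place k Ft) (hO : O.deg = 1) {gen : ℕ} {c : ℤ}
    (hRiem : ∀ E : Divisor k Ft, c ≤ Divisor.degree E →
      (Module.finrank k (riemannRochSpace E) : ℤ) = Divisor.degree E + 1 - gen) :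
    genusFF k Ft = gen := by
  have h := genusFF_eq_of_riemann (K := k) (F := Ft) (finrank_zero_eq_one O hO) (g := (gen : ℤ))
    (c := c) hRiem
  exact_mod_cast h

section Binders

variable (O : Place k Ft) (hO : O.deg = 1) {gen : ℕ} {c : ℤ}
  (hRiem : ∀ E : Divisor k Ft, c ≤ Divisor.degree E →
    (Module.finrank k (riemannRochSpace E) : ℤ) = Divisor.degree E + 1 - gen)

include hO hRiem

/-- `hst` : the stable range. -/
theorem hst_of_riemann (D : Divisor k Ft) (hD : 2 * (gen : ℤ) - 1 ≤ Divisor.degree D) :
    (Module.finrank k (riemannRochSpace D) : ℤ) = Divisor.degree D + 1 - gen := by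
  have hg := gen_eq_genusFF O hO hRiem
  have h := finrank_eq_of_le_degree (K := k) (F := Ft) (finrank_zero_eq_one O hO) (D := D)
    (by rw [hg]; exact hD)
  rw [hg] at h
  exact h

omit hRiem in
/-- `h0p` : principal divisors have `ℓ = 1`. -/
theorem h0p_of_riemann (E : Divisor k Ft) (_hE : Divisor.degree E = 0)
    (hp : E ∈ Divisor.principal (K := k) (F := Ft)) :
    Module.finrank k (riemannRochSpace E) = 1 :=
  finrank_eq_one_of_isPrincipal (finrank_zero_eq_one O hO) (Divisor.mem_principal.mp hp)

omit hO hRiem in
/-- `h0n` : non-principal divisors of degree zero have `ℓ = 0`. -/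
theorem h0n_of_riemann (E : Divisor k Ft) (hE : Divisor.degree E = 0)
    (hp : E ∉ Divisor.principal (K := k) (F := Ft)) :
    Module.finrank k (riemannRochSpace E) = 0 :=
  finrank_eq_zero_of_degree_eq_zero hE (fun h => hp (Divisor.mem_principal.mpr h))

omit hRiem in
/-- the chosen canonical divisor. -/
def canonW : Divisor k Ft :=
  Classical.choose (exists_canonical (K := k) (F := Ft) (finrank_zero_eq_one O hO))

omit hRiem in
theorem isCanonical_canonW : IsCanonical (canonW O hO) :=
  Classical.choose_spec (exists_canonical (K := k) (F := Ft) (finrank_zero_eq_one O hO))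

/-- `hW` : `deg W = 2 gen - 2`. -/
theorem degree_canonW : Divisor.degree (canonW O hO) = 2 * (gen : ℤ) - 2 := by
  rw [degree_canonical (finrank_zero_eq_one O hO) (isCanonical_canonW O hO),
    gen_eq_genusFF O hO hRiem]

/-- `htp` : `ℓ = gen` on the canonical class. -/
theorem htp_of_riemann (D : Divisor k Ft) (hD : Divisor.degree D = 2 * (gen : ℤ) - 2)
    (hp : D - canonW O hO ∈ Divisor.principal (K := k) (F := Ft)) :
    Module.finrank k (riemannRochSpace D) = gen := by
  classical
  have hg := gen_eq_genusFF O hO hRiem
  have h := finrank_of_degree_eq (finrank_zero_eq_one O hO) (isCanonical_canonW O hO) (D := D)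
    (by rw [hg]; exact hD)
  have hp' : Divisor.IsPrincipal (canonW O hO - D) := by
    have := (Divisor.principal (K := k) (F := Ft)).neg_mem hp
    rw [neg_sub] at this
    exact Divisor.mem_principal.mp this
  rw [if_pos hp', hg] at h
  omega

/-- `htn` : `ℓ = gen - 1` off the canonical class. -/
theorem htn_of_riemann (D : Divisor k Ft) (hD : Divisor.degree D = 2 * (gen : ℤ) - 2)
    (hp : D - canonW O hO ∉ Divisor.principal (K := k) (F := Ft)) :
    (Module.finrank k (riemannRochSpace D) : ℤ) = (gen : ℤ) - 1 := by
  classical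
  have hg := gen_eq_genusFF O hO hRiem
  have h := finrank_of_degree_eq (finrank_zero_eq_one O hO) (isCanonical_canonW O hO) (D := D)
    (by rw [hg]; exact hD)
  have hp' : ¬ Divisor.IsPrincipal (canonW O hO - D) := by
    intro hq
    apply hp
    have := (Divisor.principal (K := k) (F := Ft)).neg_mem (Divisor.mem_principal.mpr hq)
    rwa [neg_sub] at this
  rw [if_neg hp', hg] at h
  omega

/-- **the six RR binders of `Frame.exists_lPolynomial_of_frame`, in one statement.** -/
theorem exists_rr_binders :
    (∀ D : Divisor k Ft, 2 * (gen : ℤ) - 1 ≤ Divisor.degree D →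
      (Module.finrank k (riemannRochSpace D) : ℤ) = Divisor.degree D + 1 - gen) ∧
    (∀ E : Divisor k Ft, Divisor.degree E = 0 →
      E ∈ Divisor.principal (K := k) (F := Ft) → Module.finrank k (riemannRochSpace E) = 1) ∧
    (∀ E : Divisor k Ft, Divisor.degree E = 0 →
      E ∉ Divisor.principal (K := k) (F := Ft) → Module.finrank k (riemannRochSpace E) = 0) ∧
    ∃ W : Divisor k Ft, Divisor.degree W = 2 * (gen : ℤ) - 2 ∧
      (∀ D : Divisor k Ft, Divisor.degree D = 2 * (gen : ℤ) - 2 →
        D - W ∈ Divisor.principal (K := k) (F := Ft) →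
        Module.finrank k (riemannRochSpace D) = gen) ∧
      (∀ D : Divisor k Ft, Divisor.degree D = 2 * (gen : ℤ) - 2 →
        D - W ∉ Divisor.principal (K := k) (F := Ft) →
        (Module.finrank k (riemannRochSpace D) : ℤ) = (gen : ℤ) - 1) :=
  ⟨hst_of_riemann O hO hRiem, h0p_of_riemann O hO, h0n_of_riemann,
    canonW O hO, degree_canonW O hO hRiem, htp_of_riemann O hO hRiem, htn_of_riemann O hO hRiem⟩

end Binders

end Fermat.Agent.GJ27.ZRR.RRBinders
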