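/-
GATE-J27 (S27) / node A4 (GJ27-ZRR), slice (F4) of helper27's split 5712 (helper99):
**the Riemann–Roch values on divisor classes, through a base point `O` of degree one**, and the
invariance of the canonical class under semilinear automorphisms.

Frame: `k`, `Ft`, the prelude `Place` / `Divisor` / `Pic0` API with `ℓ(0) = 1`, `g := genusFF k Ft`,
`O : Place k Ft` with `O.deg = 1`.

* `classOf O hO E hE : Pic0 k Ft`  : the class `[E - d • O]` of a divisor `E` of degree `d`;
* `ellAt O d x : ℕ`                : `ℓ(D_x + d • O)` for any degree-zero representative `D_x` of `x`;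
* `finrank_eq_ellAt`               : `ℓ(E) = ellAt O d (classOf O hO E hE)`  (the dictionary);
* `ellAt_of_le`                    : `2 g ≤ d + 1 → ellAt O d x = d + 1 - g`           (stable range);
* `ellAt_zero`                     : `ellAt O 0 x = if x = 0 then 1 else 0`;
* `canonClass O hO h0`             : the class `[W - (2g-2) • O]` of a canonical divisor;
* `ellAt_top`                      : `1 ≤ g → ellAt O (2g-2) x = if x = canonClass then g else g - 1`;
* `isPrincipal_canonical_sub_smul` : `W - σ • W` is principal for every semilinear automorphism `σ`;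
* `smul_canonClass`                : `σ • O = O → σ • canonClass = canonClass`;
* `smul_classOf`, `ellAt_smul`     : equivariance of the dictionary.
-/
import Mathlib
import Fermat.Agent.GJ27.RRDual.Duality
import Fermat.Agent.GJ27.RRDual.Cor43
import Fermat.Agent.GH.Gal.ChartTransport

set_option autoImplicit false
set_option linter.unusedSectionVars false

noncomputable section

open AlgebraicCurve

namespace Fermat.Agent.GJ27.ZRR.RRValues

open Fermat.Agent.RRh45 Fermat.Agent.RR Fermat.Agent.GJ27.RRDual

variable {k Ft : Type*} [Field k] [Field Ft] [Algebra k Ft]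

/-! ### classes -/

theorem mk_eq_zero_iff (D : Divisor.degZero (K := k) (F := Ft)) :
    Pic0.mk D = 0 ↔ (D : Divisor k Ft) ∈ Divisor.principal (K := k) (F := Ft) := by
  unfold Pic0.mk
  rw [QuotientAddGroup.eq_zero_iff, AddSubgroup.mem_addSubgroupOf]

theorem mk_eq_mk_iff (D E : Divisor.degZero (K := k) (F := Ft)) :
    Pic0.mk D = Pic0.mk E ↔
      (D : Divisor k Ft) - (E : Divisor k Ft) ∈ Divisor.principal (K := k) (F := Ft) := by
  rw [← sub_eq_zero]
  exact mk_eq_zero_iff (D - E)

/-- a degree-zero representative of a class. -/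
def rep (x : Pic0 k Ft) : Divisor.degZero (K := k) (F := Ft) :=
  Classical.choose (Pic0.mk_surjective x)

@[simp] theorem mk_rep (x : Pic0 k Ft) : Pic0.mk (rep x) = x :=
  Classical.choose_spec (Pic0.mk_surjective x)

theorem degree_rep (x : Pic0 k Ft) : Divisor.degree ((rep x : Divisor k Ft)) = 0 :=
  Divisor.mem_degZero.mp (rep x).2

theorem degree_single_of_deg_eq_one {O : Place k Ft} (hO : O.deg = 1) (d : ℤ) :
    Divisor.degree (Finsupp.single O d : Divisor k Ft) = d := by
  rw [Divisor.degree_single, hO]
  simp

/-- the class `[E - d • O]` of a divisor `E` of degree `d`. -/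
def classOf (O : Place k Ft) (hO : O.deg = 1) {d : ℤ} (E : Divisor k Ft)
    (hE : Divisor.degree E = d) : Pic0 k Ft :=
  Pic0.mk ⟨E - Finsupp.single O d, by
    rw [Divisor.mem_degZero, map_sub, hE, degree_single_of_deg_eq_one hO, sub_self]⟩

/-- `ℓ(D_x + d • O)`: the dimension of the class `x` shifted to degree `d`. -/
def ellAt (O : Place k Ft) (d : ℕ) (x : Pic0 k Ft) : ℕ :=
  Module.finrank k (riemannRochSpace ((rep x : Divisor k Ft) + Finsupp.single O (d : ℤ)))

/-- `ellAt` computed on any representative. -/
theorem ellAt_mk (O : Place k Ft) (d : ℕ) (D : Divisor.degZero (K := k) (F := Ft)) :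
    ellAt O d (Pic0.mk D) =
      Module.finrank k (riemannRochSpace ((D : Divisor k Ft) + Finsupp.single O (d : ℤ))) := by
  unfold ellAt
  apply Cor43.ell_eq_of_sub_mem_principal
  have h : Pic0.mk (rep (Pic0.mk D)) = Pic0.mk D := mk_rep _
  rw [mk_eq_mk_iff] at h
  have e : ((rep (Pic0.mk D) : Divisor k Ft) + Finsupp.single O (d : ℤ)) -
      ((D : Divisor k Ft) + Finsupp.single O (d : ℤ)) =
      (rep (Pic0.mk D) : Divisor k Ft) - (D : Divisor k Ft) := by abel
  rw [e]
  exact h

/-- **the dictionary**: `ℓ(E) = ellAt O d [E - d • O]` for a divisor `E` of degree `d`. -/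
theorem finrank_eq_ellAt (O : Place k Ft) (hO : O.deg = 1) {d : ℕ} (E : Divisor k Ft)
    (hE : Divisor.degree E = (d : ℤ)) :
    Module.finrank k (riemannRochSpace E) = ellAt O d (classOf O hO E hE) := by
  unfold classOf
  rw [ellAt_mk]
  have e : E - Finsupp.single O (d : ℤ) + Finsupp.single O (d : ℤ) = E := sub_add_cancel _ _
  show _ = Module.finrank k (riemannRochSpace (E - Finsupp.single O (d : ℤ) +
    Finsupp.single O (d : ℤ)))
  rw [e]

theorem classOf_eq_iff (O : Place k Ft) (hO : O.deg = 1) {d : ℤ} (E E' : Divisor k Ft)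
    (hE : Divisor.degree E = d) (hE' : Divisor.degree E' = d) :
    classOf O hO E hE = classOf O hO E' hE' ↔
      E - E' ∈ Divisor.principal (K := k) (F := Ft) := by
  unfold classOf
  rw [mk_eq_mk_iff]
  have e : (E - Finsupp.single O d) - (E' - Finsupp.single O d) = E - E' := by abel
  show (E - Finsupp.single O d) - (E' - Finsupp.single O d) ∈ _ ↔ _
  rw [e]

/-- every class is the class of a divisor of degree `d`. -/
theorem classOf_rep_add (O : Place k Ft) (hO : O.deg = 1) (d : ℤ) (x : Pic0 k Ft) :
    classOf O hO ((rep x : Divisor k Ft) + Finsupp.single O d)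
      (by rw [map_add, degree_rep, degree_single_of_deg_eq_one hO, zero_add]) = x := by
  unfold classOf
  conv_rhs => rw [← mk_rep x]
  congr 1
  apply Subtype.ext
  simp

section Frame

variable [FiniteResidues k Ft] [HasPrincipalDivisors k Ft] [Nonempty (Place k Ft)]

/-! ### the stable range and degree zero -/

/-- **stable range**: `ℓ = d + 1 - g` on every class of degree `d ≥ 2g - 1`. -/
theorem ellAt_of_le (O : Place k Ft) (hO : O.deg = 1)
    (h0 : Module.finrank k (riemannRochSpace (0 : Divisor k Ft)) = 1) {d : ℕ}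
    (hd : 2 * genusFF k Ft ≤ d + 1) (x : Pic0 k Ft) :
    ellAt O d x = d + 1 - genusFF k Ft := by
  have hdeg : Divisor.degree ((rep x : Divisor k Ft) + Finsupp.single O (d : ℤ)) = (d : ℤ) := by
    rw [map_add, degree_rep, degree_single_of_deg_eq_one hO, zero_add]
  have h := finrank_eq_of_le_degree (K := k) (F := Ft) h0
    (D := (rep x : Divisor k Ft) + Finsupp.single O (d : ℤ)) (by rw [hdeg]; omega)
  rw [hdeg] at h
  unfold ellAt
  omega

/-- **degree zero**: `ℓ = 1` on the trivial class, `0` elsewhere. -/
theorem ellAt_zero (O : Place k Ft)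
    (h0 : Module.finrank k (riemannRochSpace (0 : Divisor k Ft)) = 1) (x : Pic0 k Ft)
    [Decidable (x = 0)] :
    ellAt O 0 x = if x = 0 then 1 else 0 := by
  classical
  unfold ellAt
  have e : (rep x : Divisor k Ft) + Finsupp.single O ((0 : ℕ) : ℤ) = (rep x : Divisor k Ft) := by
    simp
  rw [e, finrank_of_degree_eq_zero h0 (degree_rep x)]
  have hiff : Divisor.IsPrincipal ((rep x : Divisor k Ft)) ↔ x = 0 := by
    rw [← Divisor.mem_principal, ← mk_eq_zero_iff, mk_rep]
  by_cases hx : x = 0
  · rw [if_pos hx, if_pos (hiff.mpr hx)]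
  · rw [if_neg hx, if_neg (fun h => hx (hiff.mp h))]

/-! ### the canonical class -/

/-- **the canonical class is invariant**: `W - σ • W` is principal. -/
theorem isPrincipal_canonical_sub_smul
    (h0 : Module.finrank k (riemannRochSpace (0 : Divisor k Ft)) = 1) {W : Divisor k Ft}
    (hW : IsCanonical W) (σ : SemilinearAut k Ft) : Divisor.IsPrincipal (W - σ • W) := by
  classical
  have hdeg : Divisor.degree (σ • W) = 2 * (genusFF k Ft : ℤ) - 2 := by
    rw [SemilinearAut.degree_smul, degree_canonical h0 hW]
  have h := finrank_of_degree_eq h0 hW hdeg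
  rw [Fermat.Agent.GH.Gal.finrank_riemannRochSpace_smul σ W, finrank_canonical hW] at h
  by_contra hne
  rw [if_neg hne] at h
  omega

/-- a chosen canonical divisor. -/
def canonDiv (h0 : Module.finrank k (riemannRochSpace (0 : Divisor k Ft)) = 1) : Divisor k Ft :=
  Classical.choose (exists_canonical (K := k) (F := Ft) h0)

theorem isCanonical_canonDiv (h0 : Module.finrank k (riemannRochSpace (0 : Divisor k Ft)) = 1) :
    IsCanonical (canonDiv (k := k) (Ft := Ft) h0) :=
  Classical.choose_spec (exists_canonical (K := k) (F := Ft) h0)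

/-- **the canonical class** `[W - (2g-2) • O]`. -/
def canonClass (O : Place k Ft) (hO : O.deg = 1)
    (h0 : Module.finrank k (riemannRochSpace (0 : Divisor k Ft)) = 1) : Pic0 k Ft :=
  classOf O hO (canonDiv (k := k) (Ft := Ft) h0) (degree_canonical h0 (isCanonical_canonDiv h0))

/-- **degree `2g - 2`**: `ℓ = g` on the canonical class, `g - 1` elsewhere. -/
theorem ellAt_top (O : Place k Ft) (hO : O.deg = 1)
    (h0 : Module.finrank k (riemannRochSpace (0 : Divisor k Ft)) = 1)
    (hg : 1 ≤ genusFF k Ft) (x : Pic0 k Ft) [Decidable (x = canonClass O hO h0)] :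
    ellAt O (2 * genusFF k Ft - 2) x =
      if x = canonClass O hO h0 then genusFF k Ft else genusFF k Ft - 1 := by
  classical
  set W := canonDiv (k := k) (Ft := Ft) h0 with hWdef
  have hW : IsCanonical W := isCanonical_canonDiv h0
  have hcast : ((2 * genusFF k Ft - 2 : ℕ) : ℤ) = 2 * (genusFF k Ft : ℤ) - 2 := by omega
  set D : Divisor k Ft :=
    (rep x : Divisor k Ft) + Finsupp.single O ((2 * genusFF k Ft - 2 : ℕ) : ℤ) with hD
  have hdeg : Divisor.degree D = 2 * (genusFF k Ft : ℤ) - 2 := by
    rw [hD, map_add, degree_rep, degree_single_of_deg_eq_one hO, zero_add, hcast]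
  have h := finrank_of_degree_eq h0 hW hdeg
  have hx : x = classOf O hO D hdeg := by
    have := classOf_rep_add O hO (2 * (genusFF k Ft : ℤ) - 2) x
    rw [← this]
    unfold classOf
    congr 1
    apply Subtype.ext
    simp only [hD, hcast]
  have hiff : Divisor.IsPrincipal (W - D) ↔ x = canonClass O hO h0 := by
    rw [hx]
    unfold canonClass
    rw [classOf_eq_iff, ← Divisor.mem_principal]
    constructor
    · intro hp
      have := (Divisor.principal (K := k) (F := Ft)).neg_mem hp
      rwa [neg_sub] at this
    · intro hp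
      have := (Divisor.principal (K := k) (F := Ft)).neg_mem hp
      rwa [neg_sub] at this
  show Module.finrank k (riemannRochSpace D) = _
  by_cases hc : x = canonClass O hO h0
  · rw [if_pos hc]
    rw [if_pos (hiff.mpr hc)] at h
    omega
  · rw [if_neg hc]
    rw [if_neg (fun hp => hc (hiff.mp hp))] at h
    omega

/-! ### equivariance -/

/-- the dictionary is equivariant: `σ • [E - d • O] = [σ • E - d • O]` when `σ • O = O`. -/
theorem smul_classOf (σ : SemilinearAut k Ft) (O : Place k Ft) (hO : O.deg = 1)
    (hσO : σ • O = O) {d : ℤ} (E : Divisor k Ft) (hE : Divisor.degree E = d) :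
    σ • classOf O hO E hE =
      classOf O hO (σ • E) (by rw [SemilinearAut.degree_smul, hE]) := by
  unfold classOf
  rw [SemilinearAut.pic0_smul_mk]
  congr 1
  apply Subtype.ext
  rw [SemilinearAut.coe_degZeroSMulHom]
  show σ • (E - Finsupp.single O d) = σ • E - Finsupp.single O d
  rw [smul_sub, SemilinearAut.smul_single, hσO]

/-- **the canonical class is fixed** by every semilinear automorphism fixing the base point. -/
theorem smul_canonClass (σ : SemilinearAut k Ft) (O : Place k Ft) (hO : O.deg = 1)
    (hσO : σ • O = O) (h0 : Module.finrank k (riemannRochSpace (0 : Divisor k Ft)) = 1) :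
    σ • canonClass O hO h0 = canonClass O hO h0 := by
  unfold canonClass
  rw [smul_classOf σ O hO hσO, classOf_eq_iff]
  have h := isPrincipal_canonical_sub_smul h0 (isCanonical_canonDiv h0) σ
  have := (Divisor.principal (K := k) (F := Ft)).neg_mem (Divisor.mem_principal.mpr h)
  rwa [neg_sub] at this

/-- `ellAt` is invariant under semilinear automorphisms fixing the base point. -/
theorem ellAt_smul (σ : SemilinearAut k Ft) (O : Place k Ft) (hσO : σ • O = O) (d : ℕ)
    (x : Pic0 k Ft) : ellAt O d (σ • x) = ellAt O d x := by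
  obtain ⟨D, rfl⟩ := Pic0.mk_surjective x
  rw [SemilinearAut.pic0_smul_mk, ellAt_mk, ellAt_mk, SemilinearAut.coe_degZeroSMulHom]
  have e : σ • (D : Divisor k Ft) + Finsupp.single O (d : ℤ) =
      σ • ((D : Divisor k Ft) + Finsupp.single O (d : ℤ)) := by
    rw [smul_add, SemilinearAut.smul_single, hσO]
  rw [e, Fermat.Agent.GH.Gal.finrank_riemannRochSpace_smul]

end Frame

end Fermat.Agent.GJ27.ZRR.RRValues
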